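/-
S41 / C4 [CSP], shared infrastructure (helper88): the reduction map `ℤ[1/q] → ℤ/M` (`M` prime to
`q`) as a plain FUNCTION on `ℚ`, and its dictionary with helper95's predicates `IsAway q x`
(`x ∈ ℤ[1/q]`) and `IsCongZero q M x` (`x ∈ M ℤ[1/q]`).

* `red M x = x.num * (x.den)⁻¹ ∈ ZMod M`; it is additive/multiplicative on rationals whose
  denominator is prime to `M` (`red_add`, `red_mul`, `red_pow`, …), in particular on `ℤ[1/q]`
  (`den_coprime_of_isAway`);
* `isCongZero_iff_red` : for `x ∈ ℤ[1/q]`, `x ∈ M ℤ[1/q] ↔ red M x = 0`;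
* `exists_int_congr`, `exists_nat_mul_congr` : `ℤ[1/q] / M = ℤ / M`, and a unit class generates it
  additively;
* `isCongZero_pow_totient_sub_one` : Euler;
* closure lemmas for `IsCongZero`, including the CRT glueing `isCongZero_mul_of_coprime`.
-/
import Fermat.Agent.S41.Ihara95.Core
import Mathlib.FieldTheory.Finite.Basic

set_option autoImplicit false

namespace Fermat.Agent.S41.CSP88

open Fermat.Agent.S41.Amalgam95 Fermat.Agent.S41.Ihara95

/-- reduction mod `M` of a rational number whose denominator is prime to `M` (junk otherwise) -/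
noncomputable def red (M : ℕ) (x : ℚ) : ZMod M := (x.num : ZMod M) * ((x.den : ZMod M))⁻¹

/-! ### representations `x = m / d` -/

lemma den_dvd_of_mul_eq {x : ℚ} {d : ℕ} {m : ℤ} (h : x * (d : ℚ) = (m : ℚ)) : x.den ∣ d := by
  rcases Nat.eq_zero_or_pos d with rfl | hd
  · exact dvd_zero _
  · have hd' : (d : ℚ) ≠ 0 := by exact_mod_cast hd.ne'
    have hx : x = Rat.divInt m (d : ℤ) := by
      rw [Rat.divInt_eq_div]
      push_cast
      field_simp
      linarith
    have := Rat.den_dvd m (d : ℤ)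
    rw [← hx] at this
    exact_mod_cast this

lemma num_mul_eq_of_mul_eq {x : ℚ} {d : ℕ} {m : ℤ} (h : x * (d : ℚ) = (m : ℚ)) :
    x.num * (d : ℤ) = m * (x.den : ℤ) := by
  have h1 : x * (x.den : ℚ) = (x.num : ℚ) := Rat.mul_den_eq_num x
  have : ((x.num * (d : ℤ) : ℤ) : ℚ) = ((m * (x.den : ℤ) : ℤ) : ℚ) := by
    push_cast
    rw [← h1, ← h]
    ring
  exact_mod_cast this

lemma cancel_natCast {M d : ℕ} (hd : d.Coprime M) {a b : ZMod M}
    (h : a * (d : ZMod M) = b * (d : ZMod M)) : a = b := by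
  have hu : (d : ZMod M) * (d : ZMod M)⁻¹ = 1 := ZMod.coe_mul_inv_eq_one d hd
  calc a = a * (d : ZMod M) * (d : ZMod M)⁻¹ := by rw [mul_assoc, hu, mul_one]
    _ = b * (d : ZMod M) * (d : ZMod M)⁻¹ := by rw [h]
    _ = b := by rw [mul_assoc, hu, mul_one]

/-- `red M x * d = m` for ANY representation `x = m / d` with `d` prime to `M`. -/
lemma red_mul_natCast {M : ℕ} {x : ℚ} {d : ℕ} {m : ℤ} (hd : d.Coprime M)
    (h : x * (d : ℚ) = (m : ℚ)) : red M x * (d : ZMod M) = (m : ZMod M) := by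
  have hden : x.den.Coprime M := Nat.Coprime.coprime_dvd_left (den_dvd_of_mul_eq h) hd
  have h1 := num_mul_eq_of_mul_eq h
  have h2 : (x.num : ZMod M) * (d : ZMod M) = (m : ZMod M) * (x.den : ZMod M) := by
    have := congrArg (Int.cast : ℤ → ZMod M) h1
    push_cast at this
    exact this
  have hu : (x.den : ZMod M) * (x.den : ZMod M)⁻¹ = 1 := ZMod.coe_mul_inv_eq_one _ hden
  unfold red
  calc (x.num : ZMod M) * (x.den : ZMod M)⁻¹ * (d : ZMod M)
      = ((x.num : ZMod M) * (d : ZMod M)) * (x.den : ZMod M)⁻¹ := by ring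
    _ = (m : ZMod M) * ((x.den : ZMod M) * (x.den : ZMod M)⁻¹) := by rw [h2]; ring
    _ = (m : ZMod M) := by rw [hu, mul_one]

/-- `red M x = m * d⁻¹` for ANY representation `x = m / d` with `d` prime to `M`. -/
lemma red_eq_of_mul_eq {M : ℕ} {x : ℚ} {d : ℕ} {m : ℤ} (hd : d.Coprime M)
    (h : x * (d : ℚ) = (m : ℚ)) : red M x = (m : ZMod M) * ((d : ZMod M))⁻¹ := by
  have hu : (d : ZMod M) * (d : ZMod M)⁻¹ = 1 := ZMod.coe_mul_inv_eq_one d hd
  rw [← red_mul_natCast hd h, mul_assoc, hu, mul_one]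

lemma red_mul_den {M : ℕ} (x : ℚ) (hx : x.den.Coprime M) :
    red M x * (x.den : ZMod M) = (x.num : ZMod M) :=
  red_mul_natCast hx (Rat.mul_den_eq_num x)

/-! ### values -/

@[simp] lemma red_intCast (M : ℕ) (m : ℤ) : red M (m : ℚ) = (m : ZMod M) := by
  have := red_mul_natCast (M := M) (x := (m : ℚ)) (d := 1) (m := m) (Nat.coprime_one_left M)
    (by simp)
  simpa using this

@[simp] lemma red_natCast (M : ℕ) (m : ℕ) : red M (m : ℚ) = (m : ZMod M) := by
  have := red_intCast M (m : ℤ)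
  simpa using this

@[simp] lemma red_zero (M : ℕ) : red M 0 = 0 := by
  have := red_intCast M 0
  simpa using this

@[simp] lemma red_one (M : ℕ) : red M 1 = 1 := by
  have := red_intCast M 1
  simpa using this

@[simp] lemma red_self (M : ℕ) : red M (M : ℚ) = 0 := by
  rw [red_natCast, ZMod.natCast_self]

/-! ### ring operations -/

section ops

variable {M : ℕ} {x y : ℚ}

lemma den_coprime_add (hx : x.den.Coprime M) (hy : y.den.Coprime M) : (x + y).den.Coprime M :=
  Nat.Coprime.coprime_dvd_left (Rat.add_den_dvd x y) (Nat.Coprime.mul_left hx hy)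

lemma den_coprime_mul (hx : x.den.Coprime M) (hy : y.den.Coprime M) : (x * y).den.Coprime M :=
  Nat.Coprime.coprime_dvd_left (Rat.mul_den_dvd x y) (Nat.Coprime.mul_left hx hy)

lemma den_coprime_neg (hx : x.den.Coprime M) : (-x).den.Coprime M := by
  rwa [Rat.neg_den]

lemma den_coprime_sub (hx : x.den.Coprime M) (hy : y.den.Coprime M) : (x - y).den.Coprime M := by
  rw [sub_eq_add_neg]
  exact den_coprime_add hx (den_coprime_neg hy)

lemma den_coprime_pow (hx : x.den.Coprime M) (n : ℕ) : (x ^ n).den.Coprime M := by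
  induction n with
  | zero => simp
  | succ n ih => rw [pow_succ]; exact den_coprime_mul ih hx

lemma den_coprime_intCast (M : ℕ) (m : ℤ) : ((m : ℚ)).den.Coprime M := by simp

lemma den_coprime_natCast (M : ℕ) (m : ℕ) : ((m : ℚ)).den.Coprime M := by simp

lemma red_add (hx : x.den.Coprime M) (hy : y.den.Coprime M) :
    red M (x + y) = red M x + red M y := by
  have hd : (x.den * y.den).Coprime M := Nat.Coprime.mul_left hx hy
  apply cancel_natCast hd
  have h : (x + y) * ((x.den * y.den : ℕ) : ℚ) = ((x.num * y.den + y.num * x.den : ℤ) : ℚ) := by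
    have h1 : x * (x.den : ℚ) = (x.num : ℚ) := Rat.mul_den_eq_num x
    have h2 : y * (y.den : ℚ) = (y.num : ℚ) := Rat.mul_den_eq_num y
    push_cast
    rw [← h1, ← h2]
    ring
  rw [red_mul_natCast hd h]
  push_cast
  rw [← red_mul_den x hx, ← red_mul_den y hy]
  ring

lemma red_mul (hx : x.den.Coprime M) (hy : y.den.Coprime M) :
    red M (x * y) = red M x * red M y := by
  have hd : (x.den * y.den).Coprime M := Nat.Coprime.mul_left hx hy
  apply cancel_natCast hd
  have h : (x * y) * ((x.den * y.den : ℕ) : ℚ) = ((x.num * y.num : ℤ) : ℚ) := by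
    have h1 : x * (x.den : ℚ) = (x.num : ℚ) := Rat.mul_den_eq_num x
    have h2 : y * (y.den : ℚ) = (y.num : ℚ) := Rat.mul_den_eq_num y
    push_cast
    rw [← h1, ← h2]
    ring
  rw [red_mul_natCast hd h]
  push_cast
  rw [← red_mul_den x hx, ← red_mul_den y hy]
  ring

lemma red_neg (hx : x.den.Coprime M) : red M (-x) = - red M x := by
  have h := red_add (den_coprime_neg hx) hx
  rw [neg_add_cancel, red_zero] at h
  exact eq_neg_of_add_eq_zero_left h.symm

lemma red_sub (hx : x.den.Coprime M) (hy : y.den.Coprime M) :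
    red M (x - y) = red M x - red M y := by
  rw [sub_eq_add_neg, red_add hx (den_coprime_neg hy), red_neg hy, sub_eq_add_neg]

lemma red_pow (hx : x.den.Coprime M) (n : ℕ) : red M (x ^ n) = red M x ^ n := by
  induction n with
  | zero => simp
  | succ n ih => rw [pow_succ, red_mul (den_coprime_pow hx n) hx, ih, pow_succ]

lemma red_intCast_mul (m : ℤ) (hx : x.den.Coprime M) :
    red M ((m : ℚ) * x) = (m : ZMod M) * red M x := by
  rw [red_mul (den_coprime_intCast M m) hx, red_intCast]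

lemma red_natCast_mul (m : ℕ) (hx : x.den.Coprime M) :
    red M ((m : ℚ) * x) = (m : ZMod M) * red M x := by
  rw [red_mul (den_coprime_natCast M m) hx, red_natCast]

end ops

/-! ### the dictionary with `IsAway` / `IsCongZero` -/

section away

variable {q M : ℕ} {x y : ℚ}

lemma den_coprime_of_isAway (hMq : M.Coprime q) (hx : IsAway q x) : x.den.Coprime M := by
  obtain ⟨n, m, h⟩ := hx
  have h' : x * ((q ^ n : ℕ) : ℚ) = (m : ℚ) := by push_cast; exact h
  exact Nat.Coprime.coprime_dvd_left (den_dvd_of_mul_eq h') (Nat.Coprime.pow_left n hMq.symm)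

lemma isAway_of_isCongZero {x : ℚ} (h : IsCongZero q M x) : IsAway q x := by
  obtain ⟨r, hr, rfl⟩ := h
  exact (IsAway.of_int (q := q) (M : ℤ)).mul hr |> fun h => by simpa using h

lemma red_add_away (hMq : M.Coprime q) (hx : IsAway q x) (hy : IsAway q y) :
    red M (x + y) = red M x + red M y :=
  red_add (den_coprime_of_isAway hMq hx) (den_coprime_of_isAway hMq hy)

lemma red_mul_away (hMq : M.Coprime q) (hx : IsAway q x) (hy : IsAway q y) :
    red M (x * y) = red M x * red M y :=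
  red_mul (den_coprime_of_isAway hMq hx) (den_coprime_of_isAway hMq hy)

lemma red_sub_away (hMq : M.Coprime q) (hx : IsAway q x) (hy : IsAway q y) :
    red M (x - y) = red M x - red M y :=
  red_sub (den_coprime_of_isAway hMq hx) (den_coprime_of_isAway hMq hy)

lemma red_neg_away (hMq : M.Coprime q) (hx : IsAway q x) : red M (-x) = - red M x :=
  red_neg (den_coprime_of_isAway hMq hx)

lemma red_pow_away (hMq : M.Coprime q) (hx : IsAway q x) (n : ℕ) :
    red M (x ^ n) = red M x ^ n :=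
  red_pow (den_coprime_of_isAway hMq hx) n

lemma isAway_q_inv (hq : q ≠ 0) : IsAway q ((q : ℚ)⁻¹) := by
  have := (IsAway.one (q := q)).div_q hq
  simpa using this

lemma red_q_mul_red_q_inv (hMq : M.Coprime q) (hq : q ≠ 0) :
    red M (q : ℚ) * red M ((q : ℚ)⁻¹) = 1 := by
  have hq' : (q : ℚ) ≠ 0 := by exact_mod_cast hq
  rw [← red_mul_away hMq (IsAway.of_int (q := q) (q : ℤ) |> fun h => by simpa using h)
    (isAway_q_inv hq), mul_inv_cancel₀ hq', red_one]

lemma red_q_inv (hMq : M.Coprime q) (hq : q ≠ 0) :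
    red M ((q : ℚ)⁻¹) = ((q : ZMod M))⁻¹ := by
  have h1 := red_q_mul_red_q_inv hMq hq
  rw [red_natCast] at h1
  have hu : (q : ZMod M) * (q : ZMod M)⁻¹ = 1 := ZMod.coe_mul_inv_eq_one q hMq.symm
  calc red M ((q : ℚ)⁻¹) = ((q : ZMod M)⁻¹ * (q : ZMod M)) * red M ((q : ℚ)⁻¹) := by
        rw [mul_comm ((q : ZMod M)⁻¹), hu, one_mul]
    _ = (q : ZMod M)⁻¹ * ((q : ZMod M) * red M ((q : ℚ)⁻¹)) := by ring
    _ = (q : ZMod M)⁻¹ := by rw [h1, mul_one]

lemma isUnit_red_q (hMq : M.Coprime q) : IsUnit (red M (q : ℚ)) := by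
  rw [red_natCast]
  exact (ZMod.isUnit_iff_coprime q M).2 hMq.symm

/-- **dictionary**: for `x ∈ ℤ[1/q]` and `M` prime to `q`: `x ∈ M ℤ[1/q] ↔ red M x = 0`. -/
theorem isCongZero_iff_red (hMq : M.Coprime q) (hx : IsAway q x) :
    IsCongZero q M x ↔ red M x = 0 := by
  constructor
  · rintro ⟨r, hr, rfl⟩
    rw [red_natCast_mul M (den_coprime_of_isAway hMq hr), ZMod.natCast_self, zero_mul]
  · intro h0
    obtain ⟨n, m, h⟩ := hx
    have hd : (q ^ n).Coprime M := Nat.Coprime.pow_left n hMq.symm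
    have h' : x * ((q ^ n : ℕ) : ℚ) = (m : ℚ) := by push_cast; exact h
    have h1 := red_mul_natCast hd h'
    rw [h0, zero_mul] at h1
    obtain ⟨m', rfl⟩ := (ZMod.intCast_zmod_eq_zero_iff_dvd m M).1 h1.symm
    rcases Nat.eq_zero_or_pos q with rfl | hq
    · -- `q = 0`: then `M = 1`
      have hM1 : M = 1 := by simpa using hMq
      subst hM1
      exact ⟨x, ⟨n, _, h⟩, by simp⟩
    · have hq' : (q : ℚ) ≠ 0 := by exact_mod_cast hq.ne'
      refine ⟨(m' : ℚ) / (q : ℚ) ^ n, ⟨n, m', by field_simp⟩, ?_⟩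
      have hx' : x = ((M : ℤ) * m' : ℤ) / (q : ℚ) ^ n := by
        rw [← h]; field_simp
      rw [hx']
      push_cast
      ring

theorem isCongZero_sub_iff (hMq : M.Coprime q) (hx : IsAway q x) (hy : IsAway q y) :
    IsCongZero q M (x - y) ↔ red M x = red M y := by
  rw [isCongZero_iff_red hMq (hx.sub hy), red_sub_away hMq hx hy, sub_eq_zero]

/-- `ℤ[1/q] / M = ℤ / M` : every element is congruent to a natural number. -/
theorem exists_nat_congr (hMq : M.Coprime q) (hM : 0 < M) (hx : IsAway q x) :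
    ∃ n : ℕ, IsCongZero q M (x - n) := by
  have : NeZero M := ⟨hM.ne'⟩
  obtain ⟨n, hn⟩ := ZMod.natCast_zmod_surjective (red M x)
  refine ⟨n, (isCongZero_sub_iff hMq hx ?_).2 ?_⟩
  · have := IsAway.of_int (q := q) (n : ℤ); simpa using this
  · rw [red_natCast, hn]

theorem exists_int_congr (hMq : M.Coprime q) (hM : 0 < M) (hx : IsAway q x) :
    ∃ n : ℤ, IsCongZero q M (x - n) := by
  obtain ⟨n, hn⟩ := exists_nat_congr hMq hM hx
  exact ⟨n, by simpa using hn⟩

/-- a unit class generates `ℤ[1/q] / M` additively ("`i s₂ a` exhausts `ℤ / M`"). -/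
theorem exists_nat_mul_congr (hMq : M.Coprime q) (hM : 0 < M) {s t : ℚ} (hs : IsAway q s)
    (hsu : IsUnit (red M s)) (ht : IsAway q t) :
    ∃ i : ℕ, IsCongZero q M (t - (i : ℚ) * s) := by
  have : NeZero M := ⟨hM.ne'⟩
  obtain ⟨u, hu⟩ := hsu
  obtain ⟨i, hi⟩ := ZMod.natCast_zmod_surjective (red M t * ((u⁻¹ : (ZMod M)ˣ) : ZMod M))
  have hiA : IsAway q ((i : ℚ)) := by
    have := IsAway.of_int (q := q) (i : ℤ); simpa using this
  refine ⟨i, (isCongZero_sub_iff hMq ht (hiA.mul hs)).2 ?_⟩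
  rw [red_mul_away hMq hiA hs, red_natCast, hi, ← hu, mul_assoc, Units.inv_mul, mul_one]

theorem isUnit_red_of_mul_congr_one (hMq : M.Coprime q) (hx : IsAway q x) (hy : IsAway q y)
    (h : IsCongZero q M (x * y - 1)) : IsUnit (red M x) := by
  have h1 := (isCongZero_sub_iff hMq (hx.mul hy) IsAway.one).1 h
  rw [red_mul_away hMq hx hy, red_one] at h1
  exact IsUnit.of_mul_eq_one _ h1

theorem isUnit_red_of_mul_eq_one (hMq : M.Coprime q) (hx : IsAway q x) (hy : IsAway q y)
    (h : x * y = 1) : IsUnit (red M x) := by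
  have h1 : red M (x * y) = 1 := by rw [h, red_one]
  rw [red_mul_away hMq hx hy] at h1
  exact IsUnit.of_mul_eq_one _ h1

/-- **Euler** in `ℤ[1/q] / M`. -/
theorem isCongZero_pow_totient_sub_one (hMq : M.Coprime q) (hx : IsAway q x)
    (hu : IsUnit (red M x)) : IsCongZero q M (x ^ Nat.totient M - 1) := by
  have hxn : IsAway q (x ^ Nat.totient M) := by
    induction Nat.totient M with
    | zero => simpa using IsAway.one (q := q)
    | succ n ih => rw [pow_succ]; exact ih.mul hx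
  rw [isCongZero_sub_iff hMq hxn IsAway.one, red_pow_away hMq hx, red_one]
  obtain ⟨u, hu⟩ := hu
  rw [← hu, ← Units.val_pow_eq_pow_val, ZMod.pow_totient, Units.val_one]

end away

/-! ### closure of `IsCongZero` -/

section closure

variable {q M : ℕ} {x y : ℚ}

lemma isCongZero_zero : IsCongZero q M 0 := ⟨0, IsAway.zero, by ring⟩

lemma isCongZero_add (hx : IsCongZero q M x) (hy : IsCongZero q M y) : IsCongZero q M (x + y) := by
  obtain ⟨r, hr, rfl⟩ := hx
  obtain ⟨s, hs, rfl⟩ := hy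
  exact ⟨r + s, hr.add hs, by ring⟩

lemma isCongZero_neg (hx : IsCongZero q M x) : IsCongZero q M (-x) := by
  obtain ⟨r, hr, rfl⟩ := hx
  exact ⟨-r, hr.neg, by ring⟩

lemma isCongZero_sub (hx : IsCongZero q M x) (hy : IsCongZero q M y) : IsCongZero q M (x - y) := by
  rw [sub_eq_add_neg]
  exact isCongZero_add hx (isCongZero_neg hy)

lemma isCongZero_mul_away_right (hx : IsCongZero q M x) (hy : IsAway q y) :
    IsCongZero q M (x * y) := by
  obtain ⟨r, hr, rfl⟩ := hx
  exact ⟨r * y, hr.mul hy, by ring⟩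

lemma isCongZero_mul_away_left (hy : IsAway q y) (hx : IsCongZero q M x) :
    IsCongZero q M (y * x) := by
  rw [mul_comm]
  exact isCongZero_mul_away_right hx hy

lemma isCongZero_mul_mul {M' : ℕ} (hx : IsCongZero q M x) (hy : IsCongZero q M' y) :
    IsCongZero q (M * M') (x * y) := by
  obtain ⟨r, hr, rfl⟩ := hx
  obtain ⟨s, hs, rfl⟩ := hy
  exact ⟨r * s, hr.mul hs, by push_cast; ring⟩

lemma isCongZero_of_dvd {M' : ℕ} (h : M ∣ M') (hx : IsCongZero q M' x) : IsCongZero q M x := by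
  obtain ⟨k, rfl⟩ := h
  obtain ⟨r, hr, rfl⟩ := hx
  refine ⟨(k : ℚ) * r, ?_, by push_cast; ring⟩
  have := (IsAway.of_int (q := q) (k : ℤ)).mul hr
  simpa using this

lemma isCongZero_natCast_mul (M : ℕ) (hx : IsAway q x) : IsCongZero q M ((M : ℚ) * x) :=
  ⟨x, hx, rfl⟩

lemma isCongZero_one_iff : IsCongZero q 1 x ↔ IsAway q x := by
  constructor
  · rintro ⟨r, hr, rfl⟩; simpa using hr
  · intro h; exact ⟨x, h, by simp⟩

/-- **CRT glueing**: `x ∈ m A`, `x ∈ k A`, `gcd(m,k) = 1` ⟹ `x ∈ m k A`. -/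
theorem isCongZero_mul_of_coprime {m k : ℕ} (hmk : Nat.Coprime m k) (hm : IsCongZero q m x)
    (hk : IsCongZero q k x) : IsCongZero q (m * k) x := by
  -- Bezout `u m + v k = 1`; `x = u m x + v k x`, and `m x ∈ m k A`, `k x ∈ k m A`.
  have hc : IsCoprime (m : ℤ) (k : ℤ) := by
    rw [Int.isCoprime_iff_gcd_eq_one, Int.gcd_natCast_natCast]; exact hmk
  obtain ⟨u, v, huv⟩ := hc
  obtain ⟨r, hr, hxr⟩ := hm
  obtain ⟨s, hs, hxs⟩ := hk
  refine ⟨(u : ℚ) * s + (v : ℚ) * r, ((IsAway.of_int u).mul hs).add ((IsAway.of_int v).mul hr), ?_⟩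
  have huv' : (u : ℚ) * (m : ℚ) + (v : ℚ) * (k : ℚ) = 1 := by exact_mod_cast huv
  have : x = ((u : ℚ) * (m : ℚ) + (v : ℚ) * (k : ℚ)) * x := by rw [huv', one_mul]
  rw [this]
  push_cast
  have e1 : (u : ℚ) * (m : ℚ) * x = (m : ℚ) * (k : ℚ) * ((u : ℚ) * s) := by rw [hxs]; ring
  have e2 : (v : ℚ) * (k : ℚ) * x = (m : ℚ) * (k : ℚ) * ((v : ℚ) * r) := by rw [hxr]; ring
  rw [add_mul, e1, e2]
  ring

end closure

end Fermat.Agent.S41.CSP88
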