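/-
S41 / C4 [CSP], F2 leaf (helper88): the LAST CLAUSE of `CSP11.NTInput`, in helper11's literal shape
(#3119): a class `u ∈ ℤ[1/q]` which is invertible mod `M` generates `ℤ[1/q] / M` additively.
(`CSP11.CZ` is definitionally `Ihara95.IsCongZero`, so the statements apply verbatim to `CZ`.)
-/
import Fermat.Agent.S41.CSP88.Red

set_option autoImplicit false

namespace Fermat.Agent.S41.CSP88

open Fermat.Agent.S41.Amalgam95 Fermat.Agent.S41.Ihara95

/-- `i ↦ i · u` exhausts `ℤ[1/q] / M` when `u` is invertible mod `M`. -/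
theorem exhaust {q M : ℕ} (hM : 0 < M) (hMq : M.Coprime q) {u : ℚ} (hu : IsAway q u)
    (hinv : ∃ v : ℚ, IsAway q v ∧ IsCongZero q M (u * v - 1)) :
    ∀ t : ℚ, IsAway q t → ∃ i : ℕ, IsCongZero q M (t - (i : ℚ) * u) := by
  obtain ⟨v, hv, huv⟩ := hinv
  intro t ht
  exact exists_nat_mul_congr hMq hM hu (isUnit_red_of_mul_congr_one hMq hu hv huv) ht

/-- the same with the unit hypothesis in `ZMod M`. -/
theorem exhaust_of_isUnit {q M : ℕ} (hM : 0 < M) (hMq : M.Coprime q) {u : ℚ} (hu : IsAway q u)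
    (hunit : IsUnit (red M u)) :
    ∀ t : ℚ, IsAway q t → ∃ i : ℕ, IsCongZero q M (t - (i : ℚ) * u) :=
  fun _ ht => exists_nat_mul_congr hMq hM hu hunit ht

/-- product form used in (A3): `s₂` invertible mod `M` and `a ≡ 1 mod M` ⟹ `s₂ a` exhausts. -/
theorem exhaust_mul {q M : ℕ} (hM : 0 < M) (hMq : M.Coprime q) {s₂ a : ℚ} (hs : IsAway q s₂)
    (ha : IsAway q a) (ha1 : IsCongZero q M (a - 1)) (hunit : IsUnit (red M s₂)) :
    ∀ t : ℚ, IsAway q t → ∃ i : ℕ, IsCongZero q M (t - (i : ℚ) * (s₂ * a)) := by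
  have h1 : red M a = 1 := by
    have := (isCongZero_sub_iff hMq ha IsAway.one).1 ha1
    rwa [red_one] at this
  have hu : IsUnit (red M (s₂ * a)) := by
    rw [red_mul_away hMq hs ha, h1, mul_one]; exact hunit
  exact fun _ ht => exists_nat_mul_congr hMq hM (hs.mul ha) hu ht

/-- a natural number prime to `M` is invertible mod `M`. -/
lemma isUnit_red_natCast {M n : ℕ} (h : n.Coprime M) : IsUnit (red M (n : ℚ)) := by
  rw [red_natCast]; exact (ZMod.isUnit_iff_coprime n M).2 h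

/-- a quotient `n / q^k` with `n` prime to `M` is invertible mod `M`. -/
lemma isUnit_red_natCast_div_pow {q M n : ℕ} (hq : q ≠ 0) (hMq : M.Coprime q) (h : n.Coprime M)
    (k : ℕ) : IsUnit (red M ((n : ℚ) / (q : ℚ) ^ k)) := by
  have hq' : (q : ℚ) ≠ 0 := by exact_mod_cast hq
  have hnA : IsAway q (n : ℚ) := by simpa using IsAway.of_int (q := q) (n : ℤ)
  have hqA : IsAway q ((q : ℚ)⁻¹) := isAway_q_inv hq
  have hqkA : IsAway q (((q : ℚ)⁻¹) ^ k) := by
    induction k with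
    | zero => simpa using IsAway.one (q := q)
    | succ k ih => rw [pow_succ]; exact ih.mul hqA
  have e : (n : ℚ) / (q : ℚ) ^ k = (n : ℚ) * ((q : ℚ)⁻¹) ^ k := by
    rw [inv_pow, div_eq_mul_inv]
  rw [e, red_mul_away hMq hnA hqkA, red_pow_away hMq hqA, red_q_inv hMq hq]
  have h1 : IsUnit (red M (n : ℚ)) := isUnit_red_natCast h
  have hu : (q : ZMod M) * (q : ZMod M)⁻¹ = 1 := ZMod.coe_mul_inv_eq_one q hMq.symm
  have h2 : IsUnit ((q : ZMod M)⁻¹) := IsUnit.of_mul_eq_one _ (by rw [mul_comm]; exact hu)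
  exact h1.mul (h2.pow k)

end Fermat.Agent.S41.CSP88
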